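import Mathlib
import Fermat.Agent.MU.S17.H.Curve
import Fermat.Agent.MU.S17.Pts.Galois

section MergeWrap_S17_H_Global -- from S17/H/Global.lean

set_option autoImplicit false

/-!
# S17, package H: the global layer — definitions, the three global Props, and the assembly

`F = modularFunctionFieldBar N`, `Γ = GQ` acting by `Pts.galPlace` / `Pts.galFun`
(= `arithmeticGalois (modularFunctionFieldFull N) σ • ·`).

* `HSetup N`      : the fixed data (absolute values, Galois-fixed base point `P₀`, degree `e`,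
                    Galois-fixed embedding basis `φ`, size bound `s`).
* `nHeight`, `iPair` : the global naive height `n(D)` and the diagonal pairing `I(D,D')`.
* `IsRep`, `IsCanon` : admissible Galois-stable representatives / the canonical divisor of a class.
* `PairingThm` (seats G1–G4), `PositivityThm` (seats G5–G7), `NorthcottThm` (seat G8).
* `heightThm_of_setup` : the three Props imply `HeightThm N`   (PROVED here).
-/

noncomputable section

open AlgebraicCurve ModularCurve

namespace Fermat.Agent.S17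

variable (N : ℕ)

/-- the function field of `X₀(N)` over `ℚ̄` -/
abbrev FN : Type := ↥(modularFunctionFieldBar N)

/-- the points of `X₀(N)` over `ℚ̄` -/
abbrev PtN : Type := Place Qbar (FN N)

/-- the divisors of `X₀(N)` over `ℚ̄` -/
abbrev DivN : Type := Divisor Qbar (FN N)

/-- the Galois action on divisors -/
def galDiv (σ : GQ) (D : DivN N) : DivN N :=
  arithmeticGalois (modularFunctionFieldFull N) σ • D

/-- Galois-stable divisors -/
def GalStable (D : DivN N) : Prop := ∀ σ : GQ, galDiv N σ D = D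

/-- the fixed data of package H -/
structure HSetup where
  /-- absolute values on `ℚ̄` -/
  𝔸 : AbsSys
  /-- the base point (the cusp `∞`) -/
  P₀ : PtN N
  /-- the base point is Galois-fixed -/
  P₀_fixed : ∀ σ : GQ, Pts.galPlace N σ P₀ = P₀
  /-- degree of the embedding -/
  e : ℕ
  /-- `e` is large -/
  e_large : 20 * genusFF Qbar (FN N) + 10 ≤ e
  /-- projective dimension of the embedding -/
  r : ℕ
  /-- the embedding basis -/
  φ : Fin (r + 1) → FN N
  /-- `φ` is a basis of `L(e P₀)` with `φ 0 = 1` -/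
  isEmbBasis : IsEmbBasis P₀ e φ
  /-- `φ` is Galois-fixed (rational `q`-expansions) -/
  φ_fixed : ∀ (σ : GQ) (a : Fin (r + 1)), Pts.galFun N σ (φ a) = φ a

variable {N}

/-- the size bound for admissible representatives: `3g + 1` -/
def HSetup.s (_S : HSetup N) : ℕ := 3 * genusFF Qbar (FN N) + 1

/-- global naive height `n(D) = (1/e) Σ_v Σ_P D(P) log ‖(φ_a(P))_a‖_v` (for `P₀ ∉ supp D`). -/
def nHeight (S : HSetup N) (D : DivN N) : ℝ :=
  (1 / (S.e : ℝ)) * ∑ᶠ v : S.𝔸.ι, ∑ P ∈ D.support, (D P : ℝ) * lamloc S.𝔸 v S.φ P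

/-- global diagonal pairing `I(D,D') = Σ_v Σ_{P,Q} D(P) D'(Q) g_v(P,Q)` (disjoint supports). -/
def iPair (S : HSetup N) (D D' : DivN N) : ℝ :=
  ∑ᶠ v : S.𝔸.ι, ∑ P ∈ D.support, ∑ Q ∈ D'.support,
    (D P : ℝ) * (D' Q : ℝ) * gloc S.𝔸 v S.φ P Q

/-- the size `Σ_P |D(P)|` of a divisor -/
def dsize (D : DivN N) : ℕ := ∑ P ∈ D.support, (D P).natAbs

/-- `a` is an admissible representative of the class `x`: Galois-stable, degree `0`, class `x`,
size at most `2 s`. -/
structure IsRep (S : HSetup N) (x : JZero N) (a : DivN N) : Prop where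
  galStable : GalStable N a
  size_le : dsize a ≤ 2 * S.s
  mem : a ∈ Divisor.degZero (K := Qbar) (F := FN N)
  mk_eq : Pic0.mk ⟨a, mem⟩ = x

/-- `A` is the canonical divisor of `x` (of degree `d`): effective, `P₀ ∉ A`, `ℓ(A) = 1`,
`[A - d P₀] = x`. -/
structure IsCanon (S : HSetup N) (x : JZero N) (A : DivN N) (d : ℕ) : Prop where
  nonneg : 0 ≤ A
  degree_eq : Divisor.degree A = d
  base : A S.P₀ = 0
  ell_eq : Fermat.Agent.RR.ell A = 1
  mem : A - Finsupp.single S.P₀ (d : ℤ) ∈ Divisor.degZero (K := Qbar) (F := FN N)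
  mk_eq : Pic0.mk ⟨A - Finsupp.single S.P₀ (d : ℤ), mem⟩ = x

variable [NeZero N]

/-- **Seats G1–G4: the height pairing.**  A symmetric quasi-bilinear pairing on `MW N` computed
(up to `O(1)`) by `iPair` on ANY pair of admissible representatives with disjoint supports. -/
def PairingThm (S : HSetup N) : Prop :=
  ∃ (pair : MW N → MW N → ℝ) (C : ℝ),
    (∀ x y, pair x y = pair y x) ∧
    (∀ x x' y, |pair (x + x') y - pair x y - pair x' y| ≤ C) ∧
    (∀ (x y : MW N) (a b : DivN N), IsRep S x a → IsRep S y b → Disjoint a.support b.support →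
      |pair x y - iPair S a b| ≤ C)

/-- **Seats G5–G7: positivity.**  Every class has ONE pair of admissible representatives with
disjoint supports on which `-I(a,b)` dominates the naive height of the canonical divisor. -/
def PositivityThm (S : HSetup N) : Prop :=
  ∃ (c C : ℝ), 0 < c ∧ ∀ (x : MW N) (A : DivN N) (d : ℕ), IsCanon S x A d →
    ∃ a b : DivN N, IsRep S x a ∧ IsRep S x b ∧ Disjoint a.support b.support ∧
      c * nHeight S A - C ≤ - iPair S a b

/-- **Seat G8: canonical divisors and Northcott.** -/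
def NorthcottThm (S : HSetup N) : Prop :=
  (∀ x : MW N, ∃ (A : DivN N) (d : ℕ), IsCanon S x A d) ∧
  (∀ (x : MW N) (A : DivN N) (d : ℕ), IsCanon S x A d → 0 ≤ nHeight S A) ∧
  (∀ B : ℝ, {x : MW N | ∃ (A : DivN N) (d : ℕ), IsCanon S x A d ∧ nHeight S A ≤ B}.Finite)

/-- **Assembly of package H.** -/
theorem heightThm_of_setup (S : HSetup N) (hP : PairingThm S) (hPos : PositivityThm S)
    (hN : NorthcottThm S) : HeightThm N := by
  obtain ⟨pair, C, hsymm, hadd, hrep⟩ := hP
  obtain ⟨c, C', hc, hpos⟩ := hPos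
  obtain ⟨hex, hnn, hfin⟩ := hN
  have hC : 0 ≤ C := le_trans (abs_nonneg _) (hadd 0 0 0)
  -- lower bound for `- pair x x`
  have hlow : ∀ (x : MW N) (A : DivN N) (d : ℕ), IsCanon S x A d →
      c * nHeight S A - C' - C ≤ - pair x x := by
    intro x A d hA
    obtain ⟨a, b, ha, hb, hab, hineq⟩ := hpos x A d hA
    have h1 := hrep x x a b ha hb hab
    have h2 := abs_le.mp h1
    linarith [h2.1, h2.2]
  -- consequences of quasi-additivity
  have hzero : ∀ y, |pair 0 y| ≤ C := by
    intro y
    have := hadd 0 0 y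
    rw [add_zero] at this
    have h3 : pair 0 y - pair 0 y - pair 0 y = - pair 0 y := by ring
    rw [h3, abs_neg] at this
    exact this
  have hneg : ∀ x y, |pair (-x) y + pair x y| ≤ 2 * C := by
    intro x y
    have h1 := hadd x (-x) y
    rw [add_neg_cancel] at h1
    have h2 := hzero y
    have h1' := abs_le.mp h1
    have h2' := abs_le.mp h2
    rw [abs_le]
    constructor <;> linarith [h1'.1, h1'.2, h2'.1, h2'.2]
  have hadd' : ∀ x y y', |pair x (y + y') - pair x y - pair x y'| ≤ C := by
    intro x y y'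
    rw [hsymm x (y + y'), hsymm x y, hsymm x y']
    exact hadd y y' x
  have hneg' : ∀ x y, |pair x (-y) + pair x y| ≤ 2 * C := by
    intro x y
    rw [hsymm x (-y), hsymm x y]
    exact hneg y x
  set K₀ : ℝ := max 0 (C' + C) with hK₀
  refine ⟨fun x => - pair x x + K₀, 20 * C + 2 * K₀, ?_, ?_, ?_⟩
  · intro x
    obtain ⟨A, d, hA⟩ := hex x
    have h1 := hlow x A d hA
    have h2 := hnn x A d hA
    have h3 : 0 ≤ c * nHeight S A := mul_nonneg hc.le h2
    have h4 : C' + C ≤ K₀ := le_max_right _ _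
    show 0 ≤ - pair x x + K₀
    linarith
  · intro x y
    show |(- pair (x + y) (x + y) + K₀) + (- pair (x - y) (x - y) + K₀)
      - 2 * ((- pair x x + K₀) + (- pair y y + K₀))| ≤ 20 * C + 2 * K₀
    have hK₀nn : 0 ≤ K₀ := le_max_left _ _
    -- expand pair (x+y) (x+y)
    have e1 := abs_le.mp (hadd x y (x + y))
    have e2 := abs_le.mp (hadd' x x y)
    have e3 := abs_le.mp (hadd' y x y)
    have hxy : x - y = x + (-y) := sub_eq_add_neg x y
    have f1 := abs_le.mp (hadd x (-y) (x + -y))
    have f2 := abs_le.mp (hadd' x x (-y))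
    have f3 := abs_le.mp (hadd' (-y) x (-y))
    have f4 := abs_le.mp (hneg' x y)
    have f5 := abs_le.mp (hneg y x)
    have f6 := abs_le.mp (hneg y (-y))
    have f7 := abs_le.mp (hneg' y y)
    have hs := hsymm x y
    rw [hxy]
    rw [abs_le]
    constructor <;> linarith [e1.1, e1.2, e2.1, e2.2, e3.1, e3.2, f1.1, f1.2, f2.1, f2.2,
      f3.1, f3.2, f4.1, f4.2, f5.1, f5.2, f6.1, f6.2, f7.1, f7.2]
  · intro B
    refine (hfin ((B + C' + C) / c)).subset ?_
    intro x hx
    obtain ⟨A, d, hA⟩ := hex x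
    refine ⟨A, d, hA, ?_⟩
    have h1 := hlow x A d hA
    have hx' : - pair x x + K₀ ≤ B := hx
    have hK₀nn : 0 ≤ K₀ := le_max_left _ _
    rw [le_div_iff₀ hc]
    linarith

end Fermat.Agent.S17
end
end MergeWrap_S17_H_Global
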