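import Mathlib
import Fermat.Agent.MU.S17.H.Curve
import Fermat.Agent.S17.H.NST
import Fermat.Agent.MU.Lib.RR.MultGeneral

section MergeWrap_S17_H_Gauss -- from S17/H/Gauss.lean

set_option autoImplicit false

/-!
# S17, package H, seat L5 (GAUSS): the coefficient norm is multiplicative up to `M`-constants

Owner: helper63.  Sorry-free.

* `gaussBilin` : a finite family of bilinear forms `B_k(x,y) = Σ c k a b x_a y_b` over `ℚ̄` without
  common zero on `ℙ^{d₁} × ℙ^{d₂}` satisfies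
  `exp(-γ_v) ‖x‖_v ‖y‖_v ≤ max_k |B_k(x,y)|_v ≤ exp(γ_v) ‖x‖_v ‖y‖_v` for one `M`-constant `γ`
  (NST of helper69 on `ℙ^{d₁} × ℙ^{d₂}`).
* `gaussNorm_of_mul` : the abstract Gauss lemma for three subspaces `V₁ V₂ ⊂ V₃` of a domain with
  bases.
* `gaussNorm` : `GaussNorm 𝔸 P₀ e i j b₁ b₂ b₃` (the Prop of `S17/H/Curve.lean`).
* `cnorm_basis_change` : two bases of the same subspace give comparable coefficient norms.
-/

noncomputable section

namespace Fermat.Agent.S17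

open AlgebraicCurve MvPolynomial

/-! ### bilinear forms without common zero -/

section bilinear

variable (n : Bool → ℕ)

/-- the bihomogeneous polynomial of a bilinear form -/
def gaussPoly (c : Fin (n false + 1) → Fin (n true + 1) → Qbar) : MvPolynomial (MPVar n) Qbar :=
  ∑ a, ∑ b, monomial (Finsupp.single (⟨false, a⟩ : MPVar n) 1 + Finsupp.single ⟨true, b⟩ 1) (c a b)

theorem gaussPoly_isMultiHom (c : Fin (n false + 1) → Fin (n true + 1) → Qbar) :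
    IsMultiHom n (fun _ => 1) (gaussPoly n c) := by
  classical
  intro m hm i
  have hsub : (gaussPoly n c).support ⊆ Finset.univ.biUnion fun a => Finset.univ.biUnion fun b =>
      {Finsupp.single (⟨false, a⟩ : MPVar n) 1 + Finsupp.single ⟨true, b⟩ 1} := by
    unfold gaussPoly
    refine (MvPolynomial.support_sum).trans ?_
    refine Finset.biUnion_mono fun a _ => ?_
    refine (MvPolynomial.support_sum).trans ?_
    refine Finset.biUnion_mono fun b _ => ?_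
    exact MvPolynomial.support_monomial_subset
  have := hsub hm
  simp only [Finset.mem_biUnion, Finset.mem_univ, Finset.mem_singleton, true_and] at this
  obtain ⟨a, b, rfl⟩ := this
  cases i
  · simp [Finsupp.single_apply]
  · simp [Finsupp.single_apply]

theorem eval_gaussPoly (c : Fin (n false + 1) → Fin (n true + 1) → Qbar)
    (y : ∀ i, Fin (n i + 1) → Qbar) :
    eval (mpPoint n y) (gaussPoly n c) = ∑ a, ∑ b, c a b * (y false a * y true b) := by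
  classical
  unfold gaussPoly
  rw [map_sum]
  refine Finset.sum_congr rfl fun a _ => ?_
  rw [map_sum]
  refine Finset.sum_congr rfl fun b _ => ?_
  rw [eval_monomial, Finsupp.prod_add_index' (by simp) (by simp [pow_add]),
    Finsupp.prod_single_index (by simp), Finsupp.prod_single_index (by simp)]
  simp

/-- **Bilinear forms without common zero** are bounded below and above by the product of the
norms, up to an `M`-constant. -/
theorem gaussBilin_aux (𝔸 : AbsSys) {J : Type} [Fintype J]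
    (c : J → Fin (n false + 1) → Fin (n true + 1) → Qbar)
    (hnz : ∀ y : ∀ i, Fin (n i + 1) → Qbar, (∀ i, y i ≠ 0) →
      ∃ k, ∑ a, ∑ b, c k a b * (y false a * y true b) ≠ 0) :
    ∃ γ : MConst 𝔸, ∀ (v : 𝔸.ι) (y : ∀ i, Fin (n i + 1) → Qbar), (∀ i, y i ≠ 0) →
      (∃ k, Real.exp (-(γ v)) * (vnorm 𝔸 v (y false) * vnorm 𝔸 v (y true))
        ≤ 𝔸.abv v (∑ a, ∑ b, c k a b * (y false a * y true b))) ∧
      ∀ k, 𝔸.abv v (∑ a, ∑ b, c k a b * (y false a * y true b))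
        ≤ Real.exp (γ v) * (vnorm 𝔸 v (y false) * vnorm 𝔸 v (y true)) := by
  classical
  have hprod : ∀ (v : 𝔸.ι) (y : ∀ i, Fin (n i + 1) → Qbar),
      ∏ i : Bool, vnorm 𝔸 v (y i) ^ (fun _ : Bool => 1) i
        = vnorm 𝔸 v (y false) * vnorm 𝔸 v (y true) := by
    intro v y
    rw [Fintype.prod_bool]
    simp [mul_comm]
  obtain ⟨γ₁, hγ₁⟩ := nst 𝔸 (fun _ : Bool => 1) (fun k => gaussPoly n (c k))
    (fun k => gaussPoly_isMultiHom n (c k)) ∅ (fun G hG => (Set.notMem_empty G hG).elim)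
    (fun y hy _ => by
      obtain ⟨k, hk⟩ := hnz y hy
      exact ⟨k, by rwa [eval_gaussPoly]⟩)
  refine ⟨γ₁ + MConst.finsetSum Finset.univ fun k => polyConst 𝔸 (gaussPoly n (c k)),
    fun v y hy => ⟨?_, fun k => ?_⟩⟩
  · obtain ⟨k, hk⟩ := hγ₁ v y hy (fun G hG => (Set.notMem_empty G hG).elim)
    refine ⟨k, ?_⟩
    rw [eval_gaussPoly, hprod] at hk
    refine le_trans ?_ hk
    refine mul_le_mul_of_nonneg_right ?_
      (mul_nonneg (vnorm_nonneg 𝔸 v _) (vnorm_nonneg 𝔸 v _))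
    rw [Real.exp_le_exp, neg_le_neg_iff, MConst.add_apply]
    exact le_add_of_nonneg_right (MConst.nonneg _ v)
  · have h := abv_eval_mpPoint_le 𝔸 v (gaussPoly_isMultiHom n (c k)) y
    rw [eval_gaussPoly, hprod] at h
    refine le_trans h ?_
    refine mul_le_mul_of_nonneg_right ?_
      (mul_nonneg (vnorm_nonneg 𝔸 v _) (vnorm_nonneg 𝔸 v _))
    rw [Real.exp_le_exp, MConst.add_apply, MConst.finsetSum_apply]
    refine le_trans ?_ (le_add_of_nonneg_left (γ₁.nonneg v))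
    exact Finset.single_le_sum (f := fun k => (polyConst 𝔸 (gaussPoly n (c k))) v)
      (fun k _ => MConst.nonneg _ v) (Finset.mem_univ k)

end bilinear

/-- **Bilinear forms without common zero**, for two vectors `x`, `y`. -/
theorem gaussBilin (𝔸 : AbsSys) {J : Type} [Fintype J] {d₁ d₂ : ℕ}
    (c : J → Fin (d₁ + 1) → Fin (d₂ + 1) → Qbar)
    (hnz : ∀ (x : Fin (d₁ + 1) → Qbar) (y : Fin (d₂ + 1) → Qbar), x ≠ 0 → y ≠ 0 →
      ∃ k, ∑ a, ∑ b, c k a b * (x a * y b) ≠ 0) :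
    ∃ γ : MConst 𝔸, ∀ (v : 𝔸.ι) (x : Fin (d₁ + 1) → Qbar) (y : Fin (d₂ + 1) → Qbar),
      x ≠ 0 → y ≠ 0 →
      (∃ k, Real.exp (-(γ v)) * (vnorm 𝔸 v x * vnorm 𝔸 v y)
        ≤ 𝔸.abv v (∑ a, ∑ b, c k a b * (x a * y b))) ∧
      ∀ k, 𝔸.abv v (∑ a, ∑ b, c k a b * (x a * y b))
        ≤ Real.exp (γ v) * (vnorm 𝔸 v x * vnorm 𝔸 v y) := by
  obtain ⟨γ, hγ⟩ := gaussBilin_aux (fun b : Bool => cond b d₂ d₁) 𝔸 c (fun y hy =>
    hnz (y false) (y true) (hy false) (hy true))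
  refine ⟨γ, fun v x y hx hy => ?_⟩
  exact hγ v (fun i => match i with
    | false => x
    | true => y) (fun i => match i with
    | false => hx
    | true => hy)

/-! ### the abstract Gauss lemma -/

section abstract

variable {F : Type*} [Field F] [Algebra Qbar F]

theorem gauss_cnorm_of_mem (𝔸 : AbsSys) (v : 𝔸.ι) {V : Submodule Qbar F} {d : ℕ}
    (b : Module.Basis (Fin (d + 1)) Qbar V) {f : F} (hf : f ∈ V) :
    cnorm 𝔸 v b f = vnorm 𝔸 v (fun i => b.repr ⟨f, hf⟩ i) := by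
  unfold cnorm
  rw [dif_pos hf]

theorem gauss_repr_ne_zero {V : Submodule Qbar F} {d : ℕ}
    (b : Module.Basis (Fin (d + 1)) Qbar V) {f : F} (hf : f ∈ V) (hf0 : f ≠ 0) :
    (fun i => b.repr ⟨f, hf⟩ i) ≠ 0 := by
  intro h
  apply hf0
  have h1 : b.repr ⟨f, hf⟩ = 0 := by
    ext i
    exact congrFun h i
  have h2 : (⟨f, hf⟩ : V) = 0 := by
    rwa [map_eq_zero_iff _ b.repr.injective] at h1
  exact congrArg Subtype.val h2

theorem gauss_cnorm_pos (𝔸 : AbsSys) (v : 𝔸.ι) {V : Submodule Qbar F} {d : ℕ}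
    (b : Module.Basis (Fin (d + 1)) Qbar V) {f : F} (hf : f ∈ V) (hf0 : f ≠ 0) :
    0 < cnorm 𝔸 v b f := by
  rw [gauss_cnorm_of_mem 𝔸 v b hf]
  exact vnorm_pos 𝔸 v (gauss_repr_ne_zero b hf hf0)

/-- the coordinates of a product -/
theorem gauss_repr_mul_eq_sum {V₁ V₂ V₃ : Submodule Qbar F} {d₁ d₂ d₃ : ℕ}
    (b₁ : Module.Basis (Fin (d₁ + 1)) Qbar V₁) (b₂ : Module.Basis (Fin (d₂ + 1)) Qbar V₂)
    (b₃ : Module.Basis (Fin (d₃ + 1)) Qbar V₃)
    (hmul : ∀ f ∈ V₁, ∀ f' ∈ V₂, f * f' ∈ V₃) {f f' : F} (hf : f ∈ V₁) (hf' : f' ∈ V₂)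
    (k : Fin (d₃ + 1)) :
    b₃.repr ⟨f * f', hmul f hf f' hf'⟩ k = ∑ a, ∑ b,
      b₃.repr ⟨(b₁ a : F) * (b₂ b : F), hmul _ (b₁ a).2 _ (b₂ b).2⟩ k
        * (b₁.repr ⟨f, hf⟩ a * b₂.repr ⟨f', hf'⟩ b) := by
  have h1 : f = ∑ a, b₁.repr ⟨f, hf⟩ a • (b₁ a : F) := by
    have := congrArg Subtype.val (b₁.sum_repr ⟨f, hf⟩)
    rw [Submodule.coe_sum] at this
    simp only [Submodule.coe_smul] at this
    exact this.symm
  have h2 : f' = ∑ b, b₂.repr ⟨f', hf'⟩ b • (b₂ b : F) := by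
    have := congrArg Subtype.val (b₂.sum_repr ⟨f', hf'⟩)
    rw [Submodule.coe_sum] at this
    simp only [Submodule.coe_smul] at this
    exact this.symm
  have h3 : (⟨f * f', hmul f hf f' hf'⟩ : V₃) = ∑ a, ∑ b,
      (b₁.repr ⟨f, hf⟩ a * b₂.repr ⟨f', hf'⟩ b) •
        (⟨(b₁ a : F) * (b₂ b : F), hmul _ (b₁ a).2 _ (b₂ b).2⟩ : V₃) := by
    apply Subtype.ext
    simp only [Submodule.coe_sum, Submodule.coe_smul]
    conv_lhs => rw [h1, h2]
    rw [Finset.sum_mul_sum]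
    refine Finset.sum_congr rfl fun a _ => Finset.sum_congr rfl fun b _ => ?_
    rw [smul_mul_smul_comm]
  rw [h3]
  simp only [map_sum, map_smul, Finsupp.coe_finsetSum, Finsupp.coe_smul, Finset.sum_apply,
    Pi.smul_apply, smul_eq_mul]
  refine Finset.sum_congr rfl fun a _ => Finset.sum_congr rfl fun b _ => ?_
  ring

/-- **Abstract Gauss lemma**: for subspaces `V₁ V₂ ⊂ V₃` of a field `F ⊇ ℚ̄` with bases, the
coefficient norm of a product is the product of the coefficient norms up to an `M`-constant. -/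
theorem gaussNorm_of_mul (𝔸 : AbsSys) {V₁ V₂ V₃ : Submodule Qbar F} {d₁ d₂ d₃ : ℕ}
    (b₁ : Module.Basis (Fin (d₁ + 1)) Qbar V₁) (b₂ : Module.Basis (Fin (d₂ + 1)) Qbar V₂)
    (b₃ : Module.Basis (Fin (d₃ + 1)) Qbar V₃)
    (hmul : ∀ f ∈ V₁, ∀ f' ∈ V₂, f * f' ∈ V₃) :
    ∃ γ : MConst 𝔸, ∀ (v : 𝔸.ι) (f f' : F), f ∈ V₁ → f ≠ 0 → f' ∈ V₂ → f' ≠ 0 →
      |Real.log (cnorm 𝔸 v b₃ (f * f')) - Real.log (cnorm 𝔸 v b₁ f)
        - Real.log (cnorm 𝔸 v b₂ f')| ≤ γ v := by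
  classical
  -- the structure constants
  set c : Fin (d₃ + 1) → Fin (d₁ + 1) → Fin (d₂ + 1) → Qbar := fun k a b =>
    b₃.repr ⟨(b₁ a : F) * (b₂ b : F), hmul _ (b₁ a).2 _ (b₂ b).2⟩ k with hc
  -- the value of the forms
  have hval : ∀ (x : Fin (d₁ + 1) → Qbar) (y : Fin (d₂ + 1) → Qbar) (k : Fin (d₃ + 1)),
      ∑ a, ∑ b, c k a b * (x a * y b) =
        b₃.repr ⟨(∑ a, x a • (b₁ a : F)) * (∑ b, y b • (b₂ b : F)),
          hmul _ (Submodule.sum_mem _ fun a _ => Submodule.smul_mem _ _ (b₁ a).2) _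
            (Submodule.sum_mem _ fun b _ => Submodule.smul_mem _ _ (b₂ b).2)⟩ k := by
    intro x y k
    rw [gauss_repr_mul_eq_sum b₁ b₂ b₃ hmul
      (Submodule.sum_mem _ fun a _ => Submodule.smul_mem _ _ (b₁ a).2)
      (Submodule.sum_mem _ fun b _ => Submodule.smul_mem _ _ (b₂ b).2)]
    refine Finset.sum_congr rfl fun a _ => Finset.sum_congr rfl fun b _ => ?_
    have e1 : (⟨∑ a, x a • (b₁ a : F), Submodule.sum_mem _ fun a _ =>
        Submodule.smul_mem _ _ (b₁ a).2⟩ : V₁) = ∑ a, x a • b₁ a := by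
      apply Subtype.ext
      simp
    have e2 : (⟨∑ b, y b • (b₂ b : F), Submodule.sum_mem _ fun b _ =>
        Submodule.smul_mem _ _ (b₂ b).2⟩ : V₂) = ∑ b, y b • b₂ b := by
      apply Subtype.ext
      simp
    rw [e1, e2, b₁.repr_sum_self, b₂.repr_sum_self]
  have hnz : ∀ (x : Fin (d₁ + 1) → Qbar) (y : Fin (d₂ + 1) → Qbar), x ≠ 0 → y ≠ 0 →
      ∃ k, ∑ a, ∑ b, c k a b * (x a * y b) ≠ 0 := by
    intro x y hx hy
    by_contra hcon
    push Not at hcon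
    have hx' : (∑ a, x a • (b₁ a : F)) ≠ 0 := by
      intro h0
      apply hx
      have : (∑ a, x a • b₁ a : V₁) = 0 := by
        apply Subtype.ext
        simpa using h0
      have h2 : ⇑(b₁.repr (∑ a, x a • b₁ a)) = ⇑(b₁.repr 0) := by rw [this]
      rw [b₁.repr_sum_self, map_zero] at h2
      exact h2
    have hy' : (∑ b, y b • (b₂ b : F)) ≠ 0 := by
      intro h0
      apply hy
      have : (∑ b, y b • b₂ b : V₂) = 0 := by
        apply Subtype.ext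
        simpa using h0
      have h2 : ⇑(b₂.repr (∑ b, y b • b₂ b)) = ⇑(b₂.repr 0) := by rw [this]
      rw [b₂.repr_sum_self, map_zero] at h2
      exact h2
    have hprod := mul_ne_zero hx' hy'
    apply hprod
    have hmem : (∑ a, x a • (b₁ a : F)) * (∑ b, y b • (b₂ b : F)) ∈ V₃ :=
      hmul _ (Submodule.sum_mem _ fun a _ => Submodule.smul_mem _ _ (b₁ a).2) _
        (Submodule.sum_mem _ fun b _ => Submodule.smul_mem _ _ (b₂ b).2)
    have hz : b₃.repr ⟨_, hmem⟩ = 0 := by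
      ext k
      rw [← hval x y k, hcon k]
      rfl
    have hz' : (⟨_, hmem⟩ : V₃) = 0 := by
      rwa [map_eq_zero_iff _ b₃.repr.injective] at hz
    exact congrArg Subtype.val hz'
  obtain ⟨γ, hγ⟩ := gaussBilin 𝔸 c hnz
  refine ⟨γ, fun v f f' hf hf0 hf' hf'0 => ?_⟩
  have hX := gauss_cnorm_pos 𝔸 v b₁ hf hf0
  have hX' := gauss_cnorm_pos 𝔸 v b₂ hf' hf'0
  have hff' : f * f' ∈ V₃ := hmul f hf f' hf'
  have hZ := gauss_cnorm_pos 𝔸 v b₃ hff' (mul_ne_zero hf0 hf'0)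
  obtain ⟨⟨k, hlow⟩, hup⟩ := hγ v (fun a => b₁.repr ⟨f, hf⟩ a) (fun b => b₂.repr ⟨f', hf'⟩ b)
    (gauss_repr_ne_zero b₁ hf hf0) (gauss_repr_ne_zero b₂ hf' hf'0)
  have hcoord : ∀ k, ∑ a, ∑ b, c k a b * (b₁.repr ⟨f, hf⟩ a * b₂.repr ⟨f', hf'⟩ b)
      = b₃.repr ⟨f * f', hff'⟩ k := fun k =>
    (gauss_repr_mul_eq_sum b₁ b₂ b₃ hmul hf hf' k).symm
  rw [hcoord] at hlow
  simp only [hcoord] at hup
  rw [← gauss_cnorm_of_mem 𝔸 v b₁ hf, ← gauss_cnorm_of_mem 𝔸 v b₂ hf'] at hlow hup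
  -- lower and upper bound for the norm of the product
  have h1 : Real.exp (-(γ v)) * (cnorm 𝔸 v b₁ f * cnorm 𝔸 v b₂ f') ≤ cnorm 𝔸 v b₃ (f * f') := by
    rw [gauss_cnorm_of_mem 𝔸 v b₃ hff']
    exact le_trans hlow (abv_le_vnorm 𝔸 v (fun k => b₃.repr ⟨f * f', hff'⟩ k) k)
  have h2 : cnorm 𝔸 v b₃ (f * f') ≤ Real.exp (γ v) * (cnorm 𝔸 v b₁ f * cnorm 𝔸 v b₂ f') := by
    rw [gauss_cnorm_of_mem 𝔸 v b₃ hff']
    exact Finset.sup'_le _ _ fun k _ => hup k
  have hXX' : 0 < cnorm 𝔸 v b₁ f * cnorm 𝔸 v b₂ f' := mul_pos hX hX'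
  have l1 := Real.log_le_log (mul_pos (Real.exp_pos _) hXX') h1
  have l2 := Real.log_le_log hZ h2
  rw [Real.log_mul (Real.exp_pos _).ne' hXX'.ne', Real.log_exp,
    Real.log_mul hX.ne' hX'.ne'] at l1 l2
  rw [abs_le]
  constructor <;> linarith

end abstract

/-! ### seat L5 -/

section L5

variable {F : Type*} [Field F] [Algebra Qbar F]

theorem gauss_secSpace_mul_mem (P₀ : Place Qbar F) (e i j : ℕ) {f f' : F}
    (hf : f ∈ secSpace P₀ e i) (hf' : f' ∈ secSpace P₀ e j) :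
    f * f' ∈ secSpace P₀ e (i + j) := by
  have h := Fermat.Agent.RRMult.mul_mem_riemannRochSpace hf hf'
  unfold secSpace
  rw [← Finsupp.single_add] at h
  have hcast : ((i * e : ℕ) : ℤ) + ((j * e : ℕ) : ℤ) = (((i + j) * e : ℕ) : ℤ) := by
    push_cast
    ring
  rwa [hcast] at h

/-- **L5 (GAUSS)**: the coefficient norm is multiplicative up to `M`-constants. -/
theorem gaussNorm (𝔸 : AbsSys) (P₀ : Place Qbar F) (e i j : ℕ) {d₁ d₂ d₃ : ℕ}
    (b₁ : Module.Basis (Fin (d₁ + 1)) Qbar (secSpace P₀ e i))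
    (b₂ : Module.Basis (Fin (d₂ + 1)) Qbar (secSpace P₀ e j))
    (b₃ : Module.Basis (Fin (d₃ + 1)) Qbar (secSpace P₀ e (i + j))) :
    GaussNorm 𝔸 P₀ e i j b₁ b₂ b₃ :=
  gaussNorm_of_mul 𝔸 b₁ b₂ b₃ fun _ hf _ hf' => gauss_secSpace_mul_mem P₀ e i j hf hf'

end L5

end Fermat.Agent.S17
end
end MergeWrap_S17_H_Gauss
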