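import Mathlib
import Fermat.Agent.MU.S17.H.Gauss
import Fermat.Agent.MU.S17.H.ImmCurve

section MergeWrap_S17_H_GaussMore -- from S17/H/GaussMore.lean

set_option autoImplicit false

/-!
# S17, package H, seat L5 (GAUSS), second part: linear maps, change of basis, size of sections

Owner: helper63.  Sorry-free.

* `gauss_linear_le`     : `‖M x‖_v ≤ exp(γ_v) ‖x‖_v` for a matrix `M` over `ℚ̄`;
* `gauss_cnorm_map_le`  : a linear map `T : V → W` between subspaces with bases is bounded for the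
                          coefficient norms;
* `gauss_cnorm_basis_change`  : two bases of the same subspace give comparable coefficient norms;
* `gauss_homImage`      : the functions which are homogeneous polynomials of degree `j` in `φ`;
* `gauss_secSpace_le_homImage`: for `3g ≤ e` every section in `V_j` is a form of degree `j` in `φ` (MULT);
* `gauss_val_aeval_div_pivot` : the value of a form at `P` is the form evaluated at `coord P`;
* `gauss_secSize_zero_le`     : `|f|_v(P) ≤ exp(γ_v) ‖f‖_v` for `f ∈ V_j` (uniformly in `P`).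
-/

noncomputable section

namespace Fermat.Agent.S17

open AlgebraicCurve MvPolynomial

/-- **linear maps are bounded**: `‖M x‖_v ≤ exp(γ_v) ‖x‖_v`. -/
theorem gauss_linear_le (𝔸 : AbsSys) {d d' : ℕ} (M : Fin (d' + 1) → Fin (d + 1) → Qbar) :
    ∃ γ : MConst 𝔸, ∀ (v : 𝔸.ι) (x : Fin (d + 1) → Qbar),
      vnorm 𝔸 v (fun k => ∑ a, M k a * x a) ≤ Real.exp (γ v) * vnorm 𝔸 v x := by
  classical
  set γ₀ : MConst 𝔸 := MConst.finsetSum Finset.univ
    fun p : Fin (d' + 1) × Fin (d + 1) => MConst.logPlus (M p.1 p.2) with hγ₀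
  refine ⟨MConst.archNat (d + 1) + γ₀, fun v x => ?_⟩
  refine Finset.sup'_le _ _ fun k _ => ?_
  have hB : 0 ≤ Real.exp (γ₀ v) * vnorm 𝔸 v x :=
    mul_nonneg (Real.exp_pos _).le (vnorm_nonneg 𝔸 v x)
  have h := abv_sum_le 𝔸 v Finset.univ (fun a => M k a * x a) hB (fun a _ => by
    rw [map_mul]
    refine mul_le_mul ?_ (abv_le_vnorm 𝔸 v x a) ((𝔸.abv v).nonneg _) (Real.exp_pos _).le
    refine le_trans (MConst.abv_le_exp_logPlus (𝔸 := 𝔸) (M k a) v) ?_
    rw [Real.exp_le_exp, hγ₀, MConst.finsetSum_apply]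
    exact Finset.single_le_sum
      (f := fun p : Fin (d' + 1) × Fin (d + 1) => (MConst.logPlus (𝔸 := 𝔸) (M p.1 p.2)) v)
      (fun p _ => MConst.nonneg _ v) (Finset.mem_univ (k, a)))
  rw [Finset.card_univ, Fintype.card_fin] at h
  refine le_trans h (le_of_eq ?_)
  rw [MConst.add_apply, Real.exp_add, mul_assoc]

section maps

variable {F : Type*} [Field F] [Algebra Qbar F]

/-- **linear maps between subspaces with bases are bounded** for the coefficient norms. -/
theorem gauss_cnorm_map_le (𝔸 : AbsSys) {V W : Submodule Qbar F} {d d' : ℕ}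
    (b : Module.Basis (Fin (d + 1)) Qbar V) (b' : Module.Basis (Fin (d' + 1)) Qbar W)
    (T : V →ₗ[Qbar] W) :
    ∃ γ : MConst 𝔸, ∀ (v : 𝔸.ι) (f : F) (hf : f ∈ V),
      cnorm 𝔸 v b' (T ⟨f, hf⟩ : F) ≤ Real.exp (γ v) * cnorm 𝔸 v b f := by
  classical
  obtain ⟨γ, hγ⟩ := gauss_linear_le 𝔸 (fun k a => b'.repr (T (b a)) k)
  refine ⟨γ, fun v f hf => ?_⟩
  rw [gauss_cnorm_of_mem 𝔸 v b hf, gauss_cnorm_of_mem 𝔸 v b' (T ⟨f, hf⟩).2]
  have hcoord : (fun k => b'.repr ⟨(T ⟨f, hf⟩ : F), (T ⟨f, hf⟩).2⟩ k) =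
      fun k => ∑ a, b'.repr (T (b a)) k * b.repr ⟨f, hf⟩ a := by
    funext k
    have h1 : (⟨(T ⟨f, hf⟩ : F), (T ⟨f, hf⟩).2⟩ : W) = T ⟨f, hf⟩ := rfl
    rw [h1]
    conv_lhs => rw [← b.sum_repr ⟨f, hf⟩]
    simp only [map_sum, map_smul, Finsupp.coe_finsetSum, Finsupp.coe_smul, Finset.sum_apply,
      Pi.smul_apply, smul_eq_mul]
    exact Finset.sum_congr rfl fun a _ => mul_comm _ _
  rw [hcoord]
  exact hγ v _

/-- **change of basis**: two bases of the same subspace give comparable coefficient norms. -/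
theorem gauss_cnorm_basis_change (𝔸 : AbsSys) {V : Submodule Qbar F} {d d' : ℕ}
    (b : Module.Basis (Fin (d + 1)) Qbar V) (b' : Module.Basis (Fin (d' + 1)) Qbar V) :
    ∃ γ : MConst 𝔸, ∀ (v : 𝔸.ι) (f : F), f ∈ V → f ≠ 0 →
      |Real.log (cnorm 𝔸 v b f) - Real.log (cnorm 𝔸 v b' f)| ≤ γ v := by
  obtain ⟨γ₁, hγ₁⟩ := gauss_cnorm_map_le 𝔸 b b' LinearMap.id
  obtain ⟨γ₂, hγ₂⟩ := gauss_cnorm_map_le 𝔸 b' b LinearMap.id
  refine ⟨γ₁ + γ₂, fun v f hf hf0 => ?_⟩
  have hX := gauss_cnorm_pos 𝔸 v b hf hf0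
  have hX' := gauss_cnorm_pos 𝔸 v b' hf hf0
  have h1 := hγ₁ v f hf
  have h2 := hγ₂ v f hf
  simp only [LinearMap.id_coe, id_eq] at h1 h2
  have l1 := Real.log_le_log hX' h1
  have l2 := Real.log_le_log hX h2
  rw [Real.log_mul (Real.exp_pos _).ne' hX.ne', Real.log_exp] at l1
  rw [Real.log_mul (Real.exp_pos _).ne' hX'.ne', Real.log_exp] at l2
  have n1 := γ₁.nonneg v
  have n2 := γ₂.nonneg v
  rw [MConst.add_apply, abs_le]
  constructor <;> linarith

end maps

/-! ### sections are forms in `φ`; the size of a section is bounded by its norm -/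

section size

variable {F : Type*} [Field F] [Algebra Qbar F] {r : ℕ}

/-- the functions which are homogeneous polynomials of degree `j` in `φ` -/
def gauss_homImage (φ : Fin (r + 1) → F) (j : ℕ) : Submodule Qbar F :=
  Submodule.map (MvPolynomial.aeval φ).toLinearMap
    (MvPolynomial.homogeneousSubmodule (Fin (r + 1)) Qbar j)

theorem gauss_mem_homImage {φ : Fin (r + 1) → F} {j : ℕ} {f : F} :
    f ∈ gauss_homImage φ j ↔
      ∃ G : MvPolynomial (Fin (r + 1)) Qbar, G.IsHomogeneous j ∧ MvPolynomial.aeval φ G = f := by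
  unfold gauss_homImage
  rw [Submodule.mem_map]
  simp only [MvPolynomial.mem_homogeneousSubmodule, AlgHom.toLinearMap_apply]

theorem gauss_homImage_mul {φ : Fin (r + 1) → F} {i j : ℕ} {f f' : F}
    (hf : f ∈ gauss_homImage φ i) (hf' : f' ∈ gauss_homImage φ j) :
    f * f' ∈ gauss_homImage φ (i + j) := by
  rw [gauss_mem_homImage] at hf hf' ⊢
  obtain ⟨G, hG, rfl⟩ := hf
  obtain ⟨G', hG', rfl⟩ := hf'
  exact ⟨G * G', hG.mul hG', map_mul _ _ _⟩

variable {P₀ : Place Qbar F} {e : ℕ} {φ : Fin (r + 1) → F}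

/-- **MULT**: for `3g ≤ e` every section in `V_j = L(j e P₀)` is a form of degree `j` in the
embedding basis `φ`. -/
theorem gauss_secSpace_le_homImage (h : Fermat.Agent.RR.IsRRField Qbar F)
    (he : 3 * genusFF Qbar F ≤ e) (hφ : IsEmbBasis P₀ e φ) (j : ℕ) :
    secSpace P₀ e j ≤ gauss_homImage φ j := by
  have h1 : secSpace P₀ e 1 ≤ gauss_homImage φ 1 := by
    rw [← hφ.span_eq, Submodule.span_le]
    rintro _ ⟨a, rfl⟩
    exact gauss_mem_homImage.mpr ⟨MvPolynomial.X a, MvPolynomial.isHomogeneous_X _ a, by simp⟩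
  induction j with
  | zero =>
    intro f hf
    unfold secSpace at hf
    simp only [zero_mul, Nat.cast_zero, Finsupp.single_zero] at hf
    rw [Fermat.Agent.RR.riemannRochSpace_zero_eq h, Submodule.mem_span_singleton] at hf
    obtain ⟨c, rfl⟩ := hf
    refine gauss_mem_homImage.mpr ⟨MvPolynomial.C c, MvPolynomial.isHomogeneous_C _ c, ?_⟩
    rw [MvPolynomial.aeval_C, Algebra.smul_def, mul_one]
  | succ j ih =>
    rcases Nat.eq_zero_or_pos j with hj | hj
    · subst hj
      exact h1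
    · have hA : 3 * (genusFF Qbar F : ℤ) ≤
          Divisor.degree (Finsupp.single P₀ ((j * e : ℕ) : ℤ) : Divisor Qbar F) := by
        rw [Fermat.Agent.RR.degree_single_one h]
        have : e ≤ j * e := Nat.le_mul_of_pos_left e hj
        exact_mod_cast le_trans he this
      have hB : 3 * (genusFF Qbar F : ℤ) ≤
          Divisor.degree (Finsupp.single P₀ ((1 * e : ℕ) : ℤ) : Divisor Qbar F) := by
        rw [Fermat.Agent.RR.degree_single_one h, one_mul]
        exact_mod_cast he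
      have hspan := Fermat.Agent.RRMult.mulSpan_eq h hA hB
      have hsum : (Finsupp.single P₀ ((j * e : ℕ) : ℤ) + Finsupp.single P₀ ((1 * e : ℕ) : ℤ)
          : Divisor Qbar F) = Finsupp.single P₀ (((j + 1) * e : ℕ) : ℤ) := by
        rw [← Finsupp.single_add]
        congr 1
        push_cast
        ring
      rw [hsum] at hspan
      change riemannRochSpace _ ≤ _
      rw [← hspan]
      unfold Fermat.Agent.RRMult.mulSpan
      rw [Submodule.span_le]
      rintro _ ⟨a, ha, b, hb, rfl⟩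
      exact gauss_homImage_mul (ih ha) (h1 hb)

/-- scaling the variables of a homogeneous polynomial -/
theorem gauss_aeval_smul {G : MvPolynomial (Fin (r + 1)) Qbar} {j : ℕ} (hG : G.IsHomogeneous j)
    (u : F) (ψ : Fin (r + 1) → F) :
    MvPolynomial.aeval (fun a => u * ψ a) G = u ^ j * MvPolynomial.aeval ψ G := by
  rw [MvPolynomial.aeval_def, MvPolynomial.aeval_def, MvPolynomial.eval₂_eq',
    MvPolynomial.eval₂_eq', Finset.mul_sum]
  refine Finset.sum_congr rfl fun m hm => ?_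
  have hdeg : ∑ a, m a = j := by
    have h1 := hG.degree_eq_sum_deg_support hm
    have h2 : ∑ s ∈ m.support, m s = ∑ s, m s :=
      Finset.sum_subset (Finset.subset_univ _) fun s _ hs => by simpa using hs
    rw [← h2, ← h1]
  simp only [mul_pow]
  rw [Finset.prod_mul_distrib, Finset.prod_pow_eq_pow_sum, hdeg]
  ring

/-- the value at `P` of a polynomial in functions which are regular at `P` -/
theorem gauss_val_aeval (h : Fermat.Agent.RR.IsRRField Qbar F) (P : Place Qbar F)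
    (ψ : Fin (r + 1) → F) (hψ : ∀ a, 0 ≤ P.ord (ψ a)) (G : MvPolynomial (Fin (r + 1)) Qbar) :
    val P (MvPolynomial.aeval ψ G) = MvPolynomial.eval (fun a => val P (ψ a)) G := by
  set ψ' : Fin (r + 1) → P.toValuationSubring :=
    fun a => ⟨ψ a, Fermat.Agent.S24Res.mem_of_ord_nonneg P (hψ a)⟩ with hψ'
  have h1 : MvPolynomial.aeval ψ G =
      ((MvPolynomial.aeval ψ' G : P.toValuationSubring) : F) := by
    have := MvPolynomial.comp_aeval_apply (f := ψ')
      (IsScalarTower.toAlgHom Qbar P.toValuationSubring F) G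
    exact this.symm
  unfold val
  rw [h1, ← Pts.evHom_apply h, MvPolynomial.comp_aeval_apply, MvPolynomial.aeval_def,
    MvPolynomial.eval₂_eq', MvPolynomial.eval_eq']
  simp [hψ']

/-- the value of a form of degree `j` at `P`, normalised by the pivot, is the form evaluated at
the coordinates of `P`. -/
theorem gauss_val_aeval_div_pivot (h : Fermat.Agent.RR.IsRRField Qbar F) (hφ : IsEmbBasis P₀ e φ)
    (P : Place Qbar F) {G : MvPolynomial (Fin (r + 1)) Qbar} {j : ℕ} (hG : G.IsHomogeneous j) :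
    val P (MvPolynomial.aeval φ G / φ (pivot φ P) ^ j) = MvPolynomial.eval (coord φ P) G := by
  have hu : φ (pivot φ P) ≠ 0 := hφ.ne_zero _
  have h1 : MvPolynomial.aeval φ G =
      φ (pivot φ P) ^ j * MvPolynomial.aeval (fun a => φ a / φ (pivot φ P)) G := by
    rw [← gauss_aeval_smul hG]
    have hfun : (fun a => φ (pivot φ P) * (φ a / φ (pivot φ P))) = φ := by
      funext a
      rw [mul_div_cancel₀ _ hu]
    rw [hfun]
  rw [h1, mul_div_cancel_left₀ _ (pow_ne_zero j hu),
    gauss_val_aeval h P _ (fun a => hφ.ord_div_pivot_nonneg P a)]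
  rfl

/-- **the size of a section is bounded by its coefficient norm**, uniformly in the point:
`|f|_v(P) ≤ exp(γ_v) ‖f‖_v` for `f ∈ V_j`. -/
theorem gauss_secSize_zero_le (𝔸 : AbsSys) (h : Fermat.Agent.RR.IsRRField Qbar F)
    (he : 3 * genusFF Qbar F ≤ e) (hφ : IsEmbBasis P₀ e φ) (j : ℕ) {d : ℕ}
    (b : Module.Basis (Fin (d + 1)) Qbar (secSpace P₀ e j)) :
    ∃ γ : MConst 𝔸, ∀ (v : 𝔸.ι) (f : F), f ∈ secSpace P₀ e j → ∀ (P : Place Qbar F) (π : F),
      secSize 𝔸 v φ j P π 0 f ≤ Real.exp (γ v) * cnorm 𝔸 v b f := by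
  classical
  -- forms representing the basis
  have hex : ∀ k, ∃ G : MvPolynomial (Fin (r + 1)) Qbar, G.IsHomogeneous j ∧
      MvPolynomial.aeval φ G = (b k : F) := fun k =>
    gauss_mem_homImage.mp (gauss_secSpace_le_homImage h he hφ j (b k).2)
  choose G hGhom hGval using hex
  have hup : ∀ k, ∃ γ : MConst 𝔸, ∀ (v : 𝔸.ι) (y : Fin (r + 1) → Qbar),
      𝔸.abv v (MvPolynomial.eval y (G k)) ≤ Real.exp (γ v) * vnorm 𝔸 v y ^ j := fun k =>
    nst_upper₁ 𝔸 (hGhom k)
  choose γk hγk using hup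
  set γ₀ : MConst 𝔸 := MConst.finsetSum Finset.univ γk with hγ₀
  refine ⟨MConst.archNat (d + 1) + γ₀, fun v f hf P π => ?_⟩
  rw [gauss_cnorm_of_mem 𝔸 v b hf]
  set x : Fin (d + 1) → Qbar := fun k => b.repr ⟨f, hf⟩ k with hx
  set c := coord φ P with hc
  have hcpos : 0 < vnorm 𝔸 v c ^ j := pow_pos (hφ.vnorm_coord_pos 𝔸 v P) j
  -- `f` as a form
  have hfG : f = MvPolynomial.aeval φ (∑ k, x k • G k) := by
    have := congrArg Subtype.val (b.sum_repr ⟨f, hf⟩)
    rw [Submodule.coe_sum] at this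
    simp only [Submodule.coe_smul] at this
    rw [map_sum]
    simp only [map_smul, hGval]
    exact this.symm
  have hGf : (∑ k, x k • G k).IsHomogeneous j :=
    MvPolynomial.IsHomogeneous.sum _ _ _ fun k _ => by
      rw [MvPolynomial.smul_eq_C_mul]
      have := (MvPolynomial.isHomogeneous_C (Fin (r + 1)) (x k)).mul (hGhom k)
      rwa [zero_add] at this
  have hval : val P (f / (φ (pivot φ P) ^ j * π ^ 0)) = ∑ k, x k * MvPolynomial.eval c (G k) := by
    rw [pow_zero, mul_one]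
    conv_lhs => rw [hfG]
    rw [gauss_val_aeval_div_pivot h hφ P hGf, map_sum]
    simp only [MvPolynomial.smul_eval]
    rfl
  unfold secSize
  rw [hval, div_le_iff₀ hcpos]
  have hB : 0 ≤ Real.exp (γ₀ v) * (vnorm 𝔸 v x * vnorm 𝔸 v c ^ j) :=
    mul_nonneg (Real.exp_pos _).le (mul_nonneg (vnorm_nonneg 𝔸 v x) hcpos.le)
  have hsum := abv_sum_le 𝔸 v Finset.univ (fun k => x k * MvPolynomial.eval c (G k)) hB
    (fun k _ => by
      rw [map_mul]
      calc 𝔸.abv v (x k) * 𝔸.abv v (MvPolynomial.eval c (G k))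
          ≤ vnorm 𝔸 v x * (Real.exp (γk k v) * vnorm 𝔸 v c ^ j) :=
            mul_le_mul (abv_le_vnorm 𝔸 v x k) (hγk k v c) ((𝔸.abv v).nonneg _)
              (vnorm_nonneg 𝔸 v x)
        _ ≤ vnorm 𝔸 v x * (Real.exp (γ₀ v) * vnorm 𝔸 v c ^ j) := by
            refine mul_le_mul_of_nonneg_left ?_ (vnorm_nonneg 𝔸 v x)
            refine mul_le_mul_of_nonneg_right ?_ hcpos.le
            rw [Real.exp_le_exp, hγ₀, MConst.finsetSum_apply]
            exact Finset.single_le_sum (f := fun k => (γk k) v)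
              (fun k _ => MConst.nonneg _ v) (Finset.mem_univ k)
        _ = Real.exp (γ₀ v) * (vnorm 𝔸 v x * vnorm 𝔸 v c ^ j) := by ring)
  rw [Finset.card_univ, Fintype.card_fin] at hsum
  refine le_trans hsum (le_of_eq ?_)
  rw [MConst.add_apply, Real.exp_add]
  ring

/-- logarithmic form of `gauss_secSize_zero_le` (at the points where the section does not
vanish). -/
theorem gauss_log_secSize_zero_le (𝔸 : AbsSys) (h : Fermat.Agent.RR.IsRRField Qbar F)
    (he : 3 * genusFF Qbar F ≤ e) (hφ : IsEmbBasis P₀ e φ) (j : ℕ) {d : ℕ}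
    (b : Module.Basis (Fin (d + 1)) Qbar (secSpace P₀ e j)) :
    ∃ γ : MConst 𝔸, ∀ (v : 𝔸.ι) (f : F), f ∈ secSpace P₀ e j → f ≠ 0 →
      ∀ (P : Place Qbar F) (π : F), 0 < secSize 𝔸 v φ j P π 0 f →
      Real.log (secSize 𝔸 v φ j P π 0 f) ≤ Real.log (cnorm 𝔸 v b f) + γ v := by
  obtain ⟨γ, hγ⟩ := gauss_secSize_zero_le 𝔸 h he hφ j b
  refine ⟨γ, fun v f hf hf0 P π hpos => ?_⟩
  have h1 := Real.log_le_log hpos (hγ v f hf P π)
  rw [Real.log_mul (Real.exp_pos _).ne' (gauss_cnorm_pos 𝔸 v b hf hf0).ne', Real.log_exp] at h1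
  linarith

end size

end Fermat.Agent.S17
end
end MergeWrap_S17_H_GaussMore
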